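import Mathlib.RingTheory.AdicCompletion.RingHom
import Mathlib.RingTheory.AdicCompletion.Completeness
import Mathlib.RingTheory.AdicCompletion.Functoriality
import Mathlib.RingTheory.AdicCompletion.Noetherian
import Mathlib.RingTheory.MvPowerSeries.Equiv
import Mathlib.RingTheory.LocalRing.ResidueField.Basic
import Mathlib.RingTheory.Nakayama

/-!
# Surjections from power series rings onto complete local algebras

`evalHom` sends `Xᵢ` to `xᵢ ∈ 𝔪`; it is surjective when the `xᵢ` generate `𝔪` modulo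
`𝔪² + 𝔪_𝒪 R` (`evalHom_surjective`, `exists_mvPowerSeries_surjective`).
-/

set_option autoImplicit false

open IsLocalRing

namespace Fermat.Agent.TangentBound

variable {𝒪 R : Type*} [CommRing 𝒪] [CommRing R] [IsLocalRing R] [Algebra 𝒪 R]
  {r : ℕ}

/-- The evaluation of truncated power series at a family `x` modulo a power of the maximal
ideal. -/
noncomputable def truncEval (x : Fin r → R) (hx : ∀ i, x i ∈ maximalIdeal R) (n : ℕ) :
    MvPowerSeries (Fin r) 𝒪 →ₐ[𝒪] R ⧸ maximalIdeal R ^ n :=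
  (Ideal.quotientMapₐ (maximalIdeal R ^ n) (MvPolynomial.aeval x) (by
    refine le_trans ?_ (Ideal.le_comap_pow _ n)
    refine Ideal.pow_right_mono ?_ n
    rw [MvPolynomial.idealOfVars, Ideal.span_le]
    rintro _ ⟨i, rfl⟩
    simpa using hx i)).comp ((MvPowerSeries.truncTotalAlgHom (Fin r) 𝒪 n).restrictScalars 𝒪)

theorem truncEval_apply (x : Fin r → R) (hx : ∀ i, x i ∈ maximalIdeal R) (n : ℕ)
    (p : MvPowerSeries (Fin r) 𝒪) :
    truncEval x hx n p =
      Ideal.Quotient.mk (maximalIdeal R ^ n) (MvPolynomial.aeval x (p.truncTotal n)) :=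
  rfl

theorem truncEval_compat (x : Fin r → R) (hx : ∀ i, x i ∈ maximalIdeal R) {m n : ℕ}
    (h : m ≤ n) :
    (Ideal.Quotient.factorₐ 𝒪 (Ideal.pow_le_pow_right h)).comp (truncEval x hx n) =
      (truncEval x hx m : MvPowerSeries (Fin r) 𝒪 →ₐ[𝒪] _) := by
  refine AlgHom.ext fun p => ?_
  simp only [AlgHom.comp_apply, truncEval_apply, Ideal.Quotient.factorₐ_apply_mk,
    Ideal.Quotient.mk_eq_mk_iff_sub_mem, ← map_sub]
  have hI : (MvPolynomial.idealOfVars (Fin r) 𝒪 ^ m).map (MvPolynomial.aeval x) ≤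
      maximalIdeal R ^ m := by
    rw [Ideal.map_pow]
    refine Ideal.pow_right_mono ?_ m
    rw [MvPolynomial.idealOfVars, Ideal.map_span, Ideal.span_le]
    rintro _ ⟨_, ⟨i, rfl⟩, rfl⟩
    simpa using hx i
  exact hI (Ideal.mem_map_of_mem _
    (MvPowerSeries.truncTotal_sub_truncTotal_mem_pow_idealOfVars h le_rfl p))

variable [IsAdicComplete (maximalIdeal R) R]

/-- The `𝒪`-algebra map `𝒪⟦X₁,…,X_r⟧ → R` sending `Xᵢ` to `xᵢ`. -/
noncomputable def evalHom (x : Fin r → R) (hx : ∀ i, x i ∈ maximalIdeal R) :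
    MvPowerSeries (Fin r) 𝒪 →ₐ[𝒪] R :=
  IsAdicComplete.liftAlgHom (maximalIdeal R) (truncEval x hx) (truncEval_compat x hx)

theorem mk_evalHom (x : Fin r → R) (hx : ∀ i, x i ∈ maximalIdeal R) (n : ℕ)
    (p : MvPowerSeries (Fin r) 𝒪) :
    Ideal.Quotient.mk (maximalIdeal R ^ n) (evalHom x hx p) = truncEval x hx n p :=
  IsAdicComplete.mk_liftAlgHom _ _ (truncEval_compat x hx) n p

/-- `evalHom` sends `Xᵢ` to `xᵢ`. -/
theorem evalHom_X (x : Fin r → R) (hx : ∀ i, x i ∈ maximalIdeal R) (i : Fin r) :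
    evalHom x hx (MvPowerSeries.X i : MvPowerSeries (Fin r) 𝒪) = x i := by
  refine IsHausdorff.funext' (maximalIdeal R) (f := fun _ : Unit => _) (g := fun _ : Unit => _)
    (fun n _ => ?_) |> fun h => congrFun h ()
  rw [mk_evalHom, truncEval_apply]
  rcases Nat.lt_or_ge n 2 with hn | hn
  · rw [Ideal.Quotient.mk_eq_mk_iff_sub_mem]
    rcases Nat.lt_succ_iff.1 hn |>.eq_or_lt with h1 | h0
    · subst h1
      have h : MvPowerSeries.truncTotal 1 (MvPowerSeries.X i : MvPowerSeries (Fin r) 𝒪) = 0 := by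
        ext d
        rw [MvPolynomial.coeff_zero]
        by_cases hd : d.degree < 1
        · rw [MvPowerSeries.coeff_truncTotal _ hd, MvPowerSeries.coeff_X, if_neg]
          rintro rfl
          simp at hd
        · exact MvPowerSeries.coeff_truncTotal_eq_zero _ (not_lt.1 hd)
      rw [h, map_zero, zero_sub, pow_one]
      exact neg_mem (hx i)
    · obtain rfl : n = 0 := by omega
      simp
  · have h : MvPowerSeries.truncTotal n (MvPowerSeries.X i : MvPowerSeries (Fin r) 𝒪) =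
        MvPolynomial.X i := by
      rw [← MvPolynomial.coe_X, MvPowerSeries.truncTotal_coe_eq_self_iff _ (by omega)]
      exact lt_of_le_of_lt (MvPolynomial.totalDegree_monomial_le _ _)
        (by simpa using (show 1 < n by omega))
    rw [h, MvPolynomial.aeval_X]

/-- If `xᵢ ∈ 𝔪` and they generate `𝔪` modulo `𝔪² + 𝔪_𝒪 R`, then `R` is a quotient of the
power series ring in `r` variables. -/
theorem evalHom_surjective [IsLocalRing 𝒪] [IsNoetherianRing R]
    [IsAdicComplete (maximalIdeal 𝒪) 𝒪] [IsLocalHom (algebraMap 𝒪 R)]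
    (hres : Function.Surjective (residue R ∘ algebraMap 𝒪 R))
    (x : Fin r → R) (hx : ∀ i, x i ∈ maximalIdeal R)
    (hgen : maximalIdeal R ≤ Ideal.span (Set.range x) ⊔
      (maximalIdeal 𝒪).map (algebraMap 𝒪 R) ⊔ maximalIdeal R ^ 2) :
    Function.Surjective (evalHom (𝒪 := 𝒪) x hx) := by
  set J : Ideal R := Ideal.span (Set.range x) with hJ
  set P : Ideal R := (maximalIdeal 𝒪).map (algebraMap 𝒪 R) with hP
  have hmJP : maximalIdeal R ≤ J ⊔ P := by
    apply Submodule.le_of_le_smul_of_le_jacobson_bot (maximalIdeal R).fg_of_isNoetherianRing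
      (le_of_eq (jacobson_eq_maximalIdeal ⊥ bot_ne_top).symm)
    rwa [smul_eq_mul, ← sq]
  have hJne : J ≠ ⊤ := ne_of_lt (lt_of_le_of_lt (Ideal.span_le.2 (by
    rintro _ ⟨i, rfl⟩; exact hx i)) (maximalIdeal.isMaximal R).ne_top.lt_top)
  -- `𝒪` surjects onto `R ⧸ J`
  have hO : Function.Surjective ((Ideal.Quotient.mk J).comp (algebraMap 𝒪 R)) := by
    have : Nontrivial (R ⧸ J) := Ideal.Quotient.nontrivial_iff.2 hJne
    have : IsLocalRing (R ⧸ J) := .of_surjective' _ Ideal.Quotient.mk_surjective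
    have hne : (maximalIdeal 𝒪).map ((Ideal.Quotient.mk J).comp (algebraMap 𝒪 R)) ≠ ⊤ := by
      rw [← Ideal.map_map]
      intro htop
      have h := congrArg (Ideal.comap (Ideal.Quotient.mk J)) htop
      rw [Ideal.comap_map_of_surjective _ Ideal.Quotient.mk_surjective, Ideal.comap_top,
        ← RingHom.ker_eq_comap_bot, Ideal.mk_ker] at h
      exact (maximalIdeal.isMaximal R).ne_top (top_le_iff.1 (h ▸ sup_le
        (Ideal.map_le_iff_le_comap.2 fun a ha => Ideal.mem_comap.2 (map_nonunit _ a ha))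
        (Ideal.span_le.2 (by rintro _ ⟨i, rfl⟩; exact hx i))))
    have : IsNoetherianRing (R ⧸ J) :=
      isNoetherianRing_of_surjective R (R ⧸ J) (Ideal.Quotient.mk J) Ideal.Quotient.mk_surjective
    have : IsHausdorff ((maximalIdeal 𝒪).map ((Ideal.Quotient.mk J).comp (algebraMap 𝒪 R)))
        (R ⧸ J) := IsHausdorff.of_isLocalRing _ _ hne
    refine surjective_of_mk_map_comp_surjective (I := maximalIdeal 𝒪) _ fun z => ?_
    obtain ⟨z, rfl⟩ := Ideal.Quotient.mk_surjective z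
    obtain ⟨z, rfl⟩ := Ideal.Quotient.mk_surjective z
    obtain ⟨a, ha⟩ := hres (residue R z)
    refine ⟨a, ?_⟩
    simp only [RingHom.comp_apply, Ideal.Quotient.mk_eq_mk_iff_sub_mem, ← map_sub]
    have hmem : algebraMap 𝒪 R a - z ∈ maximalIdeal R := by
      rw [← residue_eq_zero_iff, map_sub, sub_eq_zero]
      exact ha
    obtain ⟨j, hj, q, hq, hjq⟩ := Submodule.mem_sup.1 (hmJP hmem)
    rw [← hjq, map_add, Ideal.Quotient.eq_zero_iff_mem.2 hj, zero_add, ← Ideal.map_map]
    exact Ideal.mem_map_of_mem _ hq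
  let γ : MvPowerSeries (Fin r) 𝒪 →+* R := (evalHom x hx).toRingHom
  have hmap : (Ideal.span (Set.range MvPowerSeries.X)).map γ = J := by
    rw [Ideal.map_span, hJ, ← Set.range_comp]
    congr 2
    funext i
    exact evalHom_X x hx i
  have : IsHausdorff ((Ideal.span (Set.range MvPowerSeries.X)).map γ) R :=
    IsHausdorff.of_isLocalRing _ _ (hmap ▸ hJne)
  refine surjective_of_mk_map_comp_surjective (I := Ideal.span (Set.range MvPowerSeries.X)) γ
    fun z => ?_
  obtain ⟨z, rfl⟩ := Ideal.Quotient.mk_surjective z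
  obtain ⟨a, ha⟩ := hO (Ideal.Quotient.mk J z)
  refine ⟨algebraMap 𝒪 _ a, ?_⟩
  rw [RingHom.comp_apply, Ideal.Quotient.mk_eq_mk_iff_sub_mem, hmap]
  rw [RingHom.comp_apply, Ideal.Quotient.mk_eq_mk_iff_sub_mem] at ha
  simpa [γ, AlgHom.commutes] using ha

/-- Existence form of `evalHom_surjective`: if `xᵢ ∈ 𝔪` and they generate `𝔪` modulo
`𝔪² + 𝔪_𝒪 R`, then `R` is a quotient of the power series ring in `r` variables. -/
theorem exists_mvPowerSeries_surjective [IsLocalRing 𝒪] [IsNoetherianRing R]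
    [IsAdicComplete (maximalIdeal 𝒪) 𝒪] [IsLocalHom (algebraMap 𝒪 R)]
    (hres : Function.Surjective (residue R ∘ algebraMap 𝒪 R))
    (x : Fin r → R) (hx : ∀ i, x i ∈ maximalIdeal R)
    (hgen : maximalIdeal R ≤ Ideal.span (Set.range x) ⊔
      (maximalIdeal 𝒪).map (algebraMap 𝒪 R) ⊔ maximalIdeal R ^ 2) :
    ∃ γ : MvPowerSeries (Fin r) 𝒪 →ₐ[𝒪] R, Function.Surjective γ :=
  ⟨evalHom x hx, evalHom_surjective hres x hx hgen⟩

end Fermat.Agent.TangentBound
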