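import Fermat.Prelude.Def_GaloisRep_Adic
import Mathlib.RingTheory.TensorProduct.Free
import Mathlib.LinearAlgebra.Matrix.ToLin

/-!
# Equivalence of representations in terms of matrices

Residual and adic Galois representations with conjugate matrices are equivalent, and conversely;
the matrices of base changes are computed in the evident bases.
-/

set_option autoImplicit false

open Module IsLocalRing Matrix

namespace Fermat.Agent.TangentBound

/-- The group `Gal(ℚ̄/ℚ)`. -/
abbrev GQ : Type := AlgebraicClosure ℚ ≃ₐ[ℚ] AlgebraicClosure ℚ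

section Linear

variable {A : Type*} [CommRing A] {V W : Type*} [AddCommGroup V] [Module A V]
  [AddCommGroup W] [Module A W] {ι : Type*} [Fintype ι] [DecidableEq ι]

/-- Conjugate matrices give intertwining maps. -/
theorem toLin_intertwine (b : Basis ι A V) (b' : Basis ι A W) (U : Matrix ι ι A)
    (f : V →ₗ[A] V) (g : W →ₗ[A] W)
    (h : U * LinearMap.toMatrix b b f = LinearMap.toMatrix b' b' g * U) (x : V) :
    Matrix.toLin b b' U (f x) = g (Matrix.toLin b b' U x) := by
  have hf : Matrix.toLin b b (LinearMap.toMatrix b b f) = f := Matrix.toLin_toMatrix b b f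
  have hg : Matrix.toLin b' b' (LinearMap.toMatrix b' b' g) = g := Matrix.toLin_toMatrix b' b' g
  have h2 := congrArg (Matrix.toLin b b') h
  rw [Matrix.toLin_mul b b b', Matrix.toLin_mul b b' b', hf, hg] at h2
  exact LinearMap.congr_fun h2 x

/-- The linear equivalence given by an invertible matrix between two bases. -/
noncomputable def matEquiv (b : Basis ι A V) (b' : Basis ι A W) (U : (Matrix ι ι A)ˣ) :
    V ≃ₗ[A] W :=
  LinearEquiv.ofLinearMap (Matrix.toLin b b' (U : Matrix ι ι A))
    (Matrix.toLin b' b ((U⁻¹ : (Matrix ι ι A)ˣ) : Matrix ι ι A))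
    (by rw [← Matrix.toLin_mul, Units.mul_inv, Matrix.toLin_one])
    (by rw [← Matrix.toLin_mul, Units.inv_mul, Matrix.toLin_one])

/-- An intertwining isomorphism transports the matrices. -/
theorem intertwine_of_conj (b : Basis ι A V) (e : V ≃ₗ[A] W) (f : V →ₗ[A] V) (g : W →ₗ[A] W)
    (h : ∀ x, e (f x) = g (e x)) :
    LinearMap.toMatrix (b.map e) (b.map e) g = LinearMap.toMatrix b b f := by
  ext i j
  rw [LinearMap.toMatrix_apply, LinearMap.toMatrix_apply, Basis.map_apply, ← h]
  simp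

/-- An intertwining isomorphism gives a conjugating matrix. -/
theorem exists_units_conj (b : Basis ι A V) (b' : Basis ι A W) (e : V ≃ₗ[A] W) :
    ∃ U : (Matrix ι ι A)ˣ, ∀ (f : V →ₗ[A] V) (g : W →ₗ[A] W),
      (∀ x, e (f x) = g (e x)) →
        (U : Matrix ι ι A) * LinearMap.toMatrix b b f = LinearMap.toMatrix b' b' g * U := by
  refine ⟨⟨LinearMap.toMatrix b b' e.toLinearMap, LinearMap.toMatrix b' b e.symm.toLinearMap,
    by rw [← LinearMap.toMatrix_comp, LinearEquiv.comp_symm, LinearMap.toMatrix_id],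
    by rw [← LinearMap.toMatrix_comp, LinearEquiv.symm_comp, LinearMap.toMatrix_id]⟩,
    fun f g h => ?_⟩
  show LinearMap.toMatrix b b' e.toLinearMap * _ = _ * LinearMap.toMatrix b b' e.toLinearMap
  rw [← LinearMap.toMatrix_comp, ← LinearMap.toMatrix_comp]
  congr 1
  exact LinearMap.ext h

end Linear

section Residual

variable {k : Type} [Field k] {ι : Type*} [Fintype ι] [DecidableEq ι]

/-- Residual representations with conjugate matrices are equivalent. -/
theorem residual_isEquiv_of_matrix {ρ₁ ρ₂ : ResidualGaloisRep k} (b : Basis ι k ρ₁.V)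
    (b' : Basis ι k ρ₂.V) (U : (Matrix ι ι k)ˣ)
    (h : ∀ σ, (U : Matrix ι ι k) * LinearMap.toMatrix b b (ρ₁.ρ σ) =
      LinearMap.toMatrix b' b' (ρ₂.ρ σ) * U) :
    ρ₁.IsEquiv ρ₂ :=
  ⟨{ toLinearEquiv := matEquiv b b' U
     map_apply := fun σ x => toLin_intertwine b b' _ _ _ (h σ) x }⟩

/-- Equivalent residual representations have conjugate matrices. -/
theorem exists_units_of_residual_isEquiv {ρ₁ ρ₂ : ResidualGaloisRep k}
    (h : ρ₁.IsEquiv ρ₂) (b : Basis ι k ρ₁.V) (b' : Basis ι k ρ₂.V) :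
    ∃ U : (Matrix ι ι k)ˣ, ∀ σ, (U : Matrix ι ι k) * LinearMap.toMatrix b b (ρ₁.ρ σ) =
      LinearMap.toMatrix b' b' (ρ₂.ρ σ) * U := by
  obtain ⟨e⟩ := h
  obtain ⟨U, hU⟩ := exists_units_conj b b' e.toLinearEquiv
  exact ⟨U, fun σ => hU _ _ (e.map_apply σ)⟩

/-- A basis of a base change with the mapped matrices. -/
theorem exists_basis_baseChangeAlong {k' : Type} [Field k'] (φ : k →+* k')
    (ρ : ResidualGaloisRep k) (b : Basis ι k ρ.V) :
    ∃ b' : Basis ι k' (ρ.baseChangeAlong φ).V, ∀ σ,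
      LinearMap.toMatrix b' b' ((ρ.baseChangeAlong φ).ρ σ) =
        (LinearMap.toMatrix b b (ρ.ρ σ)).map φ := by
  let _ : Algebra k k' := φ.toAlgebra
  exact ⟨Algebra.TensorProduct.basis k' b, fun σ => LinearMap.toMatrix_baseChange _ (ρ.ρ σ) b b⟩

end Residual

section Adic

variable {A : Type} [CommRing A] [IsLocalRing A] {ι : Type*} [Fintype ι] [DecidableEq ι]

/-- Adic representations with conjugate matrices are equivalent. -/
theorem adic_isEquiv_of_matrix {ρ₁ ρ₂ : GaloisRepAdic A} (b : Basis ι A ρ₁.V)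
    (b' : Basis ι A ρ₂.V) (U : (Matrix ι ι A)ˣ)
    (h : ∀ σ, (U : Matrix ι ι A) * LinearMap.toMatrix b b (ρ₁.ρ σ) =
      LinearMap.toMatrix b' b' (ρ₂.ρ σ) * U) :
    ρ₁.IsEquiv ρ₂ :=
  ⟨{ toLinearEquiv := matEquiv b b' U
     map_apply := fun σ x => toLin_intertwine b b' _ _ _ (h σ) x }⟩

/-- A basis of an adic base change with the mapped matrices. -/
theorem exists_basis_adic_baseChangeAlong {B : Type} [CommRing B] [IsLocalRing B] (φ : A →+* B)
    (hφ : IsLocalHom φ) (ρ : GaloisRepAdic A) (b : Basis ι A ρ.V) :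
    ∃ b' : Basis ι B (ρ.baseChangeAlong φ hφ).V, ∀ σ,
      LinearMap.toMatrix b' b' ((ρ.baseChangeAlong φ hφ).ρ σ) =
        (LinearMap.toMatrix b b (ρ.ρ σ)).map φ := by
  let _ : Algebra A B := φ.toAlgebra
  exact ⟨Algebra.TensorProduct.basis B b, fun σ => LinearMap.toMatrix_baseChange _ (ρ.ρ σ) b b⟩

/-- A basis of the residual representation with the reduced matrices. -/
theorem exists_basis_residual (ρ : GaloisRepAdic A) (b : Basis ι A ρ.V) :
    ∃ b' : Basis ι (ResidueField A) ρ.residual.V, ∀ σ,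
      LinearMap.toMatrix b' b' (ρ.residual.ρ σ) =
        (LinearMap.toMatrix b b (ρ.ρ σ)).map (residue A) := by
  exact ⟨Algebra.TensorProduct.basis (ResidueField A) b,
    fun σ => LinearMap.toMatrix_baseChange _ (ρ.ρ σ) b b⟩

end Adic

end Fermat.Agent.TangentBound
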