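import Fermat.Agent.TangentBound.Derivations
import Fermat.Agent.TangentBound.MatrixEquiv
import Fermat.Prelude.Def_GaloisRep_DeformationRingData

/-!
# Cocycles attached to tangent vectors of a deformation ring

For a universal deformation ring `R` with residual representation `barMat`, a derivation
`R → k` gives a cocycle of `ad ρ̄` (`tangentCocycle`), and it vanishes when this cocycle is a
coboundary (`eq_zero_of_tangentCocycle_mem_range`), as equivalent deformations to `k[ε]` are equal.
-/

set_option autoImplicit false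

open IsLocalRing TrivSqZeroExt Module

namespace Fermat.Agent.TangentBound

/-- Two by two matrices. -/
abbrev Mat2 (k : Type) : Type := Matrix (Fin 2) (Fin 2) k

theorem isUnit_one_add_inr {k : Type} [Field k] (X : Mat2 k) :
    (1 + X.map inr : Mat2 (DualNumber k)) * (1 - X.map inr) = 1 ∧
      (1 - X.map inr : Mat2 (DualNumber k)) * (1 + X.map inr) = 1 := by
  have h : (X.map inr : Mat2 (DualNumber k)) * X.map inr = 0 := by
    ext i j <;> simp [Matrix.mul_apply]
  constructor
  · rw [add_mul, mul_sub, mul_sub, one_mul, one_mul, mul_one, h]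
    abel
  · rw [sub_mul, mul_add, mul_add, one_mul, one_mul, mul_one, h]
    abel

section

variable {𝒪 : Type} [CommRing 𝒪] [IsDomain 𝒪] [IsDiscreteValuationRing 𝒪]
  [IsAdicComplete (maximalIdeal 𝒪) 𝒪]
  {ρbar : ResidualGaloisRep (ResidueField 𝒪)}
  {𝒟 : ∀ ⦃A : Type⦄ [CommRing A] [IsLocalRing A] [Algebra 𝒪 A], GaloisRepAdic A → Prop}
  (DQ : GaloisRep.DeformationRingData 𝒪 ρbar 𝒟)

/-- A basis of the universal representation. -/
noncomputable def univBasis : Basis (Fin 2) DQ.R DQ.ρ.V :=
  Module.finBasisOfFinrankEq DQ.R DQ.ρ.V DQ.ρ.finrank_eq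

/-- The matrix of the universal representation. -/
noncomputable def univMat : GQ →* Mat2 DQ.R where
  toFun σ := LinearMap.toMatrix (univBasis DQ) (univBasis DQ) (DQ.ρ.ρ σ)
  map_one' := by rw [map_one]; exact LinearMap.toMatrix_one _
  map_mul' σ τ := by rw [map_mul]; exact LinearMap.toMatrix_mul _ _ _

/-- The reduction of the universal matrix. -/
noncomputable def barMat : GQ →* Mat2 (ResidueField 𝒪) :=
  MonoidHom.comp ((resK DQ.residue_surjective : DQ.R →+* ResidueField 𝒪).mapMatrix
    (m := Fin 2)).toMonoidHom (univMat DQ)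

/-- `barMat` is the reduction of the universal matrix. -/
theorem barMat_apply (σ : GQ) :
    barMat DQ σ = (univMat DQ σ).map (resK DQ.residue_surjective) := rfl

/-- `barMat σ` has inverse `barMat σ⁻¹`. -/
theorem barMat_mul_inv (σ : GQ) : barMat DQ σ * barMat DQ σ⁻¹ = 1 := by
  rw [← map_mul, mul_inv_cancel, map_one]

/-- `barMat σ⁻¹` is a left inverse of `barMat σ`. -/
theorem barMat_inv_mul (σ : GQ) : barMat DQ σ⁻¹ * barMat DQ σ = 1 := by
  rw [← map_mul, inv_mul_cancel, map_one]

/-- Inside some basis of `ρ̄` the representation is given by `barMat`. -/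
theorem exists_basis_barMat :
    ∃ c : Basis (Fin 2) (ResidueField 𝒪) ρbar.V,
      ∀ σ, LinearMap.toMatrix c c (ρbar.ρ σ) = barMat DQ σ := by
  set e := residueEquiv DQ.residue_surjective with he
  set bb := Module.finBasisOfFinrankEq (ResidueField 𝒪) ρbar.V ρbar.finrank_eq with hbb
  obtain ⟨b1, hb1⟩ := exists_basis_residual DQ.ρ (univBasis DQ)
  obtain ⟨b2, hb2⟩ := exists_basis_baseChangeAlong (ResidueField.map (algebraMap 𝒪 DQ.R)) ρbar bb
  obtain ⟨U, hU⟩ := exists_units_of_residual_isEquiv DQ.residual_isEquiv b1 b2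
  let V : (Mat2 (ResidueField 𝒪))ˣ :=
    Units.map ((e.symm : ResidueField DQ.R →+* ResidueField 𝒪).mapMatrix (m := Fin 2)).toMonoidHom U
  have hV : ∀ σ, (V : Mat2 (ResidueField 𝒪)) * barMat DQ σ =
      LinearMap.toMatrix bb bb (ρbar.ρ σ) * V := by
    intro σ
    have h := congrArg ((e.symm : ResidueField DQ.R →+* ResidueField 𝒪).mapMatrix) (hU σ)
    rw [map_mul, map_mul, hb1, hb2, RingHom.mapMatrix_apply _ (Matrix.map _ _),
      RingHom.mapMatrix_apply _ (Matrix.map _ _), Matrix.map_map, Matrix.map_map] at h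
    have h1 : ((LinearMap.toMatrix bb bb (ρbar.ρ σ)).map
        (⇑(e.symm : ResidueField DQ.R →+* ResidueField 𝒪) ∘
          ⇑(ResidueField.map (algebraMap 𝒪 DQ.R)))) = LinearMap.toMatrix bb bb (ρbar.ρ σ) := by
      ext i j
      exact e.symm_apply_apply _
    rw [h1] at h
    exact h
  let g : ρbar.V ≃ₗ[ResidueField 𝒪] ρbar.V := matEquiv bb bb V
  refine ⟨bb.map g, fun σ => ?_⟩
  rw [intertwine_of_conj bb g (Matrix.toLin bb bb (barMat DQ σ)) (ρbar.ρ σ) fun x =>
    toLin_intertwine bb bb _ _ _ (by rw [LinearMap.toMatrix_toLin]; exact hV σ) x,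
    LinearMap.toMatrix_toLin]

/-- The cocycle attached to a derivation. -/
noncomputable def tangentCocycle :
    derSpace DQ.residue_surjective →ₗ[ResidueField 𝒪] GQ → Mat2 (ResidueField 𝒪) where
  toFun d σ := (univMat DQ σ).map (d : DQ.R →ₗ[𝒪] ResidueField 𝒪) * barMat DQ σ⁻¹
  map_add' d e := by
    funext σ
    rw [Pi.add_apply, ← add_mul]
    rfl
  map_smul' a d := by
    funext σ
    rw [Pi.smul_apply, RingHom.id_apply, ← smul_mul_assoc]
    rfl

/-- The value of the cocycle of a derivation. -/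
theorem tangentCocycle_apply (d : derSpace DQ.residue_surjective) (σ : GQ) :
    tangentCocycle DQ d σ =
      (univMat DQ σ).map (d : DQ.R →ₗ[𝒪] ResidueField 𝒪) * barMat DQ σ⁻¹ := rfl

/-- A derivation applied to the universal matrix. -/
theorem map_derivation_univMat (d : derSpace DQ.residue_surjective) (σ : GQ) :
    (univMat DQ σ).map (d : DQ.R →ₗ[𝒪] ResidueField 𝒪) = tangentCocycle DQ d σ * barMat DQ σ := by
  rw [tangentCocycle_apply, mul_assoc, barMat_inv_mul, mul_one]

/-- The cocycle identity. -/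
theorem tangentCocycle_mul (d : derSpace DQ.residue_surjective) (σ τ : GQ) :
    tangentCocycle DQ d (σ * τ) =
      tangentCocycle DQ d σ + barMat DQ σ * tangentCocycle DQ d τ * barMat DQ σ⁻¹ := by
  have h : (univMat DQ (σ * τ)).map (d : DQ.R →ₗ[𝒪] ResidueField 𝒪) =
      (univMat DQ σ).map (d : DQ.R →ₗ[𝒪] ResidueField 𝒪) * barMat DQ τ +
        barMat DQ σ * (univMat DQ τ).map (d : DQ.R →ₗ[𝒪] ResidueField 𝒪) := by
    rw [map_mul]
    ext i j
    simp only [Matrix.map_apply, Matrix.mul_apply, Matrix.add_apply, map_sum, barMat_apply,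
      ← Finset.sum_add_distrib]
    refine Finset.sum_congr rfl fun l _ => ?_
    rw [d.2]
    ring
  rw [tangentCocycle_apply, h, mul_inv_rev, map_mul, add_mul, mul_assoc,
    ← mul_assoc (barMat DQ τ), barMat_mul_inv, one_mul]
  congr 1
  rw [map_derivation_univMat, mul_assoc, mul_assoc, ← mul_assoc (barMat DQ τ), barMat_mul_inv,
    one_mul, ← mul_assoc]

theorem map_dualHom_univMat (d : derSpace DQ.residue_surjective) (σ : GQ) :
    (univMat DQ σ).map (dualHom DQ.residue_surjective d) =
      (barMat DQ σ).map inl + (tangentCocycle DQ d σ * barMat DQ σ).map inr := by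
  rw [← map_derivation_univMat]
  rfl

/-- The coboundary map. -/
noncomputable def coboundary :
    Mat2 (ResidueField 𝒪) →ₗ[ResidueField 𝒪] GQ → Mat2 (ResidueField 𝒪) where
  toFun X σ := X - barMat DQ σ * X * barMat DQ σ⁻¹
  map_add' X Y := by funext σ; simp only [Pi.add_apply, mul_add, add_mul]; abel
  map_smul' a X := by
    funext σ
    simp only [Pi.smul_apply, RingHom.id_apply, mul_smul_comm, smul_mul_assoc, smul_sub]

/-- The value of a coboundary. -/
theorem coboundary_apply (X : Mat2 (ResidueField 𝒪)) (σ : GQ) :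
    coboundary DQ X σ = X - barMat DQ σ * X * barMat DQ σ⁻¹ := rfl

/-- The dual numbers over a field are complete. -/
theorem isAdicComplete_dualNumber (k : Type) [Field k] :
    IsAdicComplete (maximalIdeal (DualNumber k)) (DualNumber k) := by
  have h2 : (maximalIdeal (DualNumber k)) ^ 2 = ⊥ := by
    rw [DualNumber.maximalIdeal_eq_span_singleton_eps, Ideal.span_singleton_pow,
      DualNumber.eps_pow_two, Ideal.span_singleton_eq_bot]
  exact (IsAdicComplete.mk (toIsHausdorff := ⟨fun x hx => by
      have := hx 2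
      rwa [h2, Submodule.bot_smul, SModEq.bot] at this⟩)
    (toIsPrecomplete := ⟨fun f hf => ⟨f 2, fun n => by
      rcases le_total n 2 with hn | hn
      · exact hf hn
      · have := hf hn
        rw [h2, Submodule.bot_smul, SModEq.bot] at this
        rw [← this]; exact SModEq.rfl⟩⟩))

omit [IsAdicComplete (maximalIdeal 𝒪) 𝒪] in
/-- The residue field of the dual numbers is that of `𝒪`. -/
theorem dual_residue_surjective :
    Function.Surjective (residue (DualNumber (ResidueField 𝒪)) ∘
      algebraMap 𝒪 (DualNumber (ResidueField 𝒪))) := by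
  intro z
  obtain ⟨x, rfl⟩ := residue_surjective z
  obtain ⟨a, ha⟩ := residue_surjective (fst x)
  refine ⟨a, ?_⟩
  rw [Function.comp_apply, ← sub_eq_zero, ← map_sub, residue_eq_zero_iff, mem_maximalIdeal,
    mem_nonunits_iff, isUnit_iff_isUnit_fst, fst_sub, ← ha]
  simp [algebraMap_eq_inl']

/-- The structure map to the dual numbers is local. -/
instance isLocalHom_algebraMap_dual :
    IsLocalHom (algebraMap 𝒪 (DualNumber (ResidueField 𝒪))) := by
  refine ⟨fun a ha => ?_⟩
  rw [isUnit_iff_isUnit_fst, algebraMap_eq_inl', fst_inl, isUnit_iff_ne_zero,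
    ResidueField.algebraMap_eq] at ha
  exact (residue_ne_zero_iff_isUnit a).1 ha

theorem residual_baseChange_dualHom (d : derSpace DQ.residue_surjective) :
    ((DQ.ρ.baseChangeAlong (dualHom DQ.residue_surjective d : DQ.R →+* _)
        (isLocalHom_dualHom _ d)).residual).IsEquiv
      (ρbar.baseChangeAlong
        (ResidueField.map (algebraMap 𝒪 (DualNumber (ResidueField 𝒪))))) := by
  obtain ⟨b1, hb1⟩ := exists_basis_adic_baseChangeAlong
    (dualHom DQ.residue_surjective d : DQ.R →+* DualNumber (ResidueField 𝒪))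
    (isLocalHom_dualHom _ d) DQ.ρ (univBasis DQ)
  obtain ⟨b2, hb2⟩ := exists_basis_residual _ b1
  obtain ⟨c, hc⟩ := exists_basis_barMat DQ
  obtain ⟨c2, hc2⟩ := exists_basis_baseChangeAlong
    (ResidueField.map (algebraMap 𝒪 (DualNumber (ResidueField 𝒪)))) ρbar c
  refine residual_isEquiv_of_matrix b2 c2 1 fun σ => ?_
  rw [Units.val_one, one_mul, mul_one, hb2, hb1, hc2, hc, barMat_apply, Matrix.map_map,
    Matrix.map_map]
  ext i j
  set x := LinearMap.toMatrix (univBasis DQ) (univBasis DQ) (DQ.ρ.ρ σ) i j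
  show residue _ (dualHom DQ.residue_surjective d x) =
    ResidueField.map (algebraMap 𝒪 (DualNumber (ResidueField 𝒪))) (resK DQ.residue_surjective x)
  obtain ⟨a, ha⟩ := residue_surjective (resK DQ.residue_surjective x)
  rw [← ha, ResidueField.map_residue, ← sub_eq_zero, ← map_sub, residue_eq_zero_iff,
    mem_maximalIdeal, mem_nonunits_iff, isUnit_iff_isUnit_fst, fst_sub, fst_dualHom,
    algebraMap_eq_inl', fst_inl, ResidueField.algebraMap_eq, ha, sub_self]
  exact not_isUnit_zero

variable (h𝒟 : ∀ (φ : DQ.R →ₐ[𝒪] DualNumber (ResidueField 𝒪))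
  (hφ : IsLocalHom (φ : DQ.R →+* DualNumber (ResidueField 𝒪))), Function.Surjective φ →
    𝒟 (DQ.ρ.baseChangeAlong (φ : DQ.R →+* DualNumber (ResidueField 𝒪)) hφ))
include h𝒟

/-- A tangent vector whose cocycle is a coboundary is zero. -/
theorem eq_zero_of_tangentCocycle_mem_range (d : derSpace DQ.residue_surjective)
    (hd : tangentCocycle DQ d ∈ LinearMap.range (coboundary DQ)) : d = 0 := by
  by_contra hd0
  obtain ⟨X, hX⟩ := hd
  have := isAdicComplete_dualNumber (ResidueField 𝒪)
  obtain ⟨φ, -, huniq⟩ := DQ.universal (DualNumber (ResidueField 𝒪)) dual_residue_surjective _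
    (h𝒟 _ (isLocalHom_dualHom _ d) (dualHom_surjective _ hd0)) (residual_baseChange_dualHom DQ d)
  obtain ⟨b0, hb0⟩ := exists_basis_adic_baseChangeAlong
    (dualHom DQ.residue_surjective 0 : DQ.R →+* DualNumber (ResidueField 𝒪))
    (isLocalHom_dualHom _ 0) DQ.ρ (univBasis DQ)
  obtain ⟨b1, hb1⟩ := exists_basis_adic_baseChangeAlong
    (dualHom DQ.residue_surjective d : DQ.R →+* DualNumber (ResidueField 𝒪))
    (isLocalHom_dualHom _ d) DQ.ρ (univBasis DQ)
  let U : (Mat2 (DualNumber (ResidueField 𝒪)))ˣ :=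
    ⟨1 + X.map inr, 1 - X.map inr, (isUnit_one_add_inr X).1, (isUnit_one_add_inr X).2⟩
  have h0 := huniq (dualHom DQ.residue_surjective 0) ⟨isLocalHom_dualHom _ 0,
    adic_isEquiv_of_matrix b0 b1 U fun σ => by
      rw [hb0, hb1]
      show (1 + X.map inr : Mat2 (DualNumber (ResidueField 𝒪))) *
          (univMat DQ σ).map (dualHom DQ.residue_surjective 0) =
        (univMat DQ σ).map (dualHom DQ.residue_surjective d) * (1 + X.map inr)
      rw [map_dualHom_univMat, map_dualHom_univMat, map_zero (tangentCocycle DQ)]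
      have hc : tangentCocycle DQ d σ * barMat DQ σ =
          X * barMat DQ σ - barMat DQ σ * X := by
        rw [← hX, coboundary_apply, sub_mul, mul_assoc (barMat DQ σ * X), barMat_inv_mul, mul_one]
      rw [hc, Pi.zero_apply, zero_mul]
      ext i j <;>
        simp [Matrix.mul_apply, Fin.sum_univ_two, Matrix.one_apply] <;>
        fin_cases i <;> fin_cases j <;> simp <;> ring⟩
  have h1 := huniq (dualHom DQ.residue_surjective d)
    ⟨isLocalHom_dualHom _ d, ⟨GaloisRepAdic.Equiv.refl _⟩⟩
  exact hd0 (dualHom_injective _ (h1.trans h0.symm))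

end

end Fermat.Agent.TangentBound
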