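import Fermat.Agent.TangentBound.Cocycle
import Fermat.Prelude.Def_GaloisRep_LocalConditions
import Mathlib.RingTheory.RootsOfUnity.PrimitiveRoots
import Mathlib.RingTheory.RootsOfUnity.AlgebraicallyClosed
import Mathlib.FieldTheory.IsAlgClosed.AlgebraicClosure

/-!
# Tangent cocycles of deformations with fixed determinant

For deformations with cyclotomic determinant the cocycle of a tangent vector has trace zero
(`tangentCocycle_trace`).
-/

set_option autoImplicit false

open IsLocalRing Module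

namespace Fermat.Agent.TangentBound

/-- Every automorphism acts on the `p`-th roots of unity by a natural power. -/
theorem exists_rootsOfUnity_exponent (p : ℕ) [Fact p.Prime] (σ : GQ) :
    ∃ a : ℕ, ∀ μ : AlgebraicClosure ℚ, μ ^ p ^ 1 = 1 → σ μ = μ ^ a := by
  have : NeZero p := ⟨(Fact.out (p := p.Prime)).ne_zero⟩
  have : NeZero (p : AlgebraicClosure ℚ) := ⟨Nat.cast_ne_zero.2 (NeZero.ne p)⟩
  obtain ⟨ζ, hζ⟩ := HasEnoughRootsOfUnity.exists_primitiveRoot (AlgebraicClosure ℚ) p
  have h : (σ ζ) ^ p = 1 := by rw [← map_pow, hζ.pow_eq_one, map_one]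
  obtain ⟨a, -, ha⟩ := hζ.eq_pow_of_pow_eq_one h
  refine ⟨a, fun μ hμ => ?_⟩
  rw [pow_one] at hμ
  obtain ⟨i, -, rfl⟩ := hζ.eq_pow_of_pow_eq_one hμ
  rw [map_pow, ← ha, ← pow_mul, ← pow_mul, mul_comm]

theorem map_det_eq {k R : Type} [CommRing k] [CommRing R] (res : R →+* k) (d : R →+ k)
    (hd : ∀ x y, d (x * y) = res x * d y + res y * d x) (M : Mat2 R) :
    d M.det = (M.map d * (M.map res).adjugate).trace := by
  simp [Matrix.det_fin_two, Matrix.trace_fin_two, Matrix.adjugate_fin_two, Matrix.mul_apply,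
    Fin.sum_univ_two, hd]
  ring

variable {𝒪 : Type} [CommRing 𝒪] [IsDomain 𝒪] [IsDiscreteValuationRing 𝒪]
  [IsAdicComplete (maximalIdeal 𝒪) 𝒪]
  {ρbar : ResidualGaloisRep (ResidueField 𝒪)}
  {𝒟 : ∀ ⦃A : Type⦄ [CommRing A] [IsLocalRing A] [Algebra 𝒪 A], GaloisRepAdic A → Prop}
  (DQ : GaloisRep.DeformationRingData 𝒪 ρbar 𝒟)

/-- With cyclotomic determinant the cocycle of a tangent vector has trace zero. -/
theorem tangentCocycle_trace (p : ℕ) [Fact p.Prime] (hdet : DQ.ρ.DetIsCyclotomic p)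
    (d : derSpace DQ.residue_surjective) (σ : GQ) :
    (tangentCocycle DQ d σ).trace = 0 := by
  obtain ⟨a, ha⟩ := exists_rootsOfUnity_exponent p σ
  have hd0 : (d : DQ.R →ₗ[𝒪] ResidueField 𝒪) (univMat DQ σ).det = 0 := by
    obtain ⟨t, ht⟩ := Ideal.mem_span_singleton'.1 (hdet.2 1 σ a ha)
    have hM : (univMat DQ σ).det = algebraMap 𝒪 DQ.R (a : 𝒪) + t * (p : DQ.R) := by
      rw [show (univMat DQ σ).det = LinearMap.det (DQ.ρ.ρ σ) from LinearMap.det_toMatrix _ _,
        map_natCast]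
      rw [pow_one] at ht
      rw [ht]
      ring
    rw [hM, map_add, derSpace_apply_algebraMap, zero_add, d.2,
      (resK_eq_zero_iff DQ.residue_surjective _).2 hdet.1,
      show (p : DQ.R) = algebraMap 𝒪 DQ.R (p : 𝒪) from (map_natCast _ _).symm,
      derSpace_apply_algebraMap]
    simp
  have h := map_det_eq (resK DQ.residue_surjective : DQ.R →+* ResidueField 𝒪)
    (d : DQ.R →ₗ[𝒪] ResidueField 𝒪).toAddMonoidHom d.2 (univMat DQ σ)
  have hadj : (barMat DQ σ).adjugate = (barMat DQ σ).det • barMat DQ σ⁻¹ := by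
    have h2 : barMat DQ σ⁻¹ * (barMat DQ σ * (barMat DQ σ).adjugate) = (barMat DQ σ).adjugate := by
      rw [← mul_assoc, barMat_inv_mul, one_mul]
    rw [← h2, Matrix.mul_adjugate, mul_smul_comm, mul_one]
  have h' : (0 : ResidueField 𝒪) =
      ((univMat DQ σ).map (d : DQ.R →ₗ[𝒪] ResidueField 𝒪) * (barMat DQ σ).adjugate).trace := by
    rw [← hd0]
    exact h
  rw [hadj, mul_smul_comm, Matrix.trace_smul, smul_eq_mul] at h'
  have hne : (barMat DQ σ).det ≠ 0 := by
    intro h0
    have h2 := congrArg Matrix.det (barMat_mul_inv DQ σ)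
    rw [Matrix.det_mul, h0, zero_mul, Matrix.det_one] at h2
    exact zero_ne_one h2
  exact (mul_eq_zero.1 h'.symm).resolve_left hne

end Fermat.Agent.TangentBound
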