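import Fermat.Agent.TangentBound.PowerSeries
import Mathlib.RingTheory.DualNumber
import Mathlib.LinearAlgebra.Dual.Lemmas
import Mathlib.LinearAlgebra.FreeModule.Finite.Matrix
import Mathlib.LinearAlgebra.Dimension.StrongRankCondition

/-!
# The tangent space of a complete local algebra

`derSpace` is the space of derivations of `R` over `𝒪` into the residue field. If its dimension is
at most `r`, then `R` is a quotient of a power series ring in `r` variables over `𝒪`
(`exists_surjective_of_finrank_derSpace_le`).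
-/

set_option autoImplicit false

open IsLocalRing TrivSqZeroExt

namespace Fermat.Agent.TangentBound

/-- From a separating family of functionals on a space of dimension at most `r` one can extract
a separating family with `r` members. -/
theorem exists_fin_separating {k D Y : Type*} [Field k] [AddCommGroup D] [Module k D]
    [FiniteDimensional k D] {r : ℕ} (hr : Module.finrank k D ≤ r) (s : Set Y)
    (ev : Y → Module.Dual k D) {y₀ : Y} (hy₀ : y₀ ∈ s) :
    ∃ x : Fin r → Y, (∀ i, x i ∈ s) ∧
      ∀ d : D, (∀ i, ev (x i) d = 0) → ∀ y ∈ s, ev y d = 0 := by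
  classical
  obtain ⟨f, hfs, hfspan, -⟩ := Submodule.exists_fun_fin_finrank_span_eq k (ev '' s)
  have hmr : Module.finrank k (Submodule.span k (ev '' s)) ≤ r :=
    (Submodule.finrank_le _).trans (Subspace.dual_finrank_eq.trans_le hr)
  choose g hg hfg using hfs
  refine ⟨fun i => if h : (i : ℕ) < Module.finrank k (Submodule.span k (ev '' s)) then g ⟨i, h⟩
    else y₀, fun i => ?_, fun d hd y hy => ?_⟩
  · dsimp only
    split
    · exact hg _
    · exact hy₀
  · have hle : Submodule.span k (Set.range f) ≤ LinearMap.ker (Module.Dual.eval k D d) := by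
      rw [Submodule.span_le]
      rintro _ ⟨i, rfl⟩
      have h := hd ⟨i, lt_of_lt_of_le i.2 hmr⟩
      simp only [i.2, dite_true] at h
      show f i d = 0
      rw [← hfg i]
      exact h
    refine hle ?_
    rw [hfspan]
    exact Submodule.subset_span ⟨y, hy, rfl⟩

variable {𝒪 R : Type*} [CommRing 𝒪] [IsLocalRing 𝒪] [CommRing R] [IsLocalRing R]
  [Algebra 𝒪 R] [IsLocalHom (algebraMap 𝒪 R)]

variable (hres : Function.Surjective (residue R ∘ algebraMap 𝒪 R))

/-- The residue field of `R` is that of `𝒪`. -/
noncomputable def residueEquiv : ResidueField 𝒪 ≃+* ResidueField R :=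
  RingEquiv.ofBijective (ResidueField.map (algebraMap 𝒪 R))
    ⟨(ResidueField.map (algebraMap 𝒪 R)).injective, fun y => by
      obtain ⟨a, ha⟩ := hres y
      exact ⟨residue 𝒪 a, by rw [ResidueField.map_residue]; exact ha⟩⟩

theorem residueEquiv_apply (x : ResidueField 𝒪) :
    residueEquiv hres x = ResidueField.map (algebraMap 𝒪 R) x := rfl

/-- The reduction `R → k`. -/
noncomputable def resK : R →ₐ[𝒪] ResidueField 𝒪 where
  toRingHom := ((residueEquiv hres).symm : ResidueField R →+* ResidueField 𝒪).comp (residue R)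
  commutes' a := by
    apply (residueEquiv hres).injective
    show residueEquiv hres ((residueEquiv hres).symm (residue R (algebraMap 𝒪 R a))) = _
    rw [RingEquiv.apply_symm_apply, residueEquiv_apply]
    exact (ResidueField.map_residue _ a).symm

theorem residueEquiv_resK (x : R) : residueEquiv hres (resK hres x) = residue R x :=
  (residueEquiv hres).apply_symm_apply _

/-- The kernel of reduction is the maximal ideal. -/
theorem resK_eq_zero_iff (x : R) : resK hres x = 0 ↔ x ∈ maximalIdeal R := by
  rw [← residue_eq_zero_iff, ← residueEquiv_resK hres,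
    map_eq_zero_iff _ (residueEquiv hres).injective]

/-- An element minus a lift of its reduction lies in the maximal ideal. -/
theorem sub_algebraMap_mem {x : R} {a : 𝒪} (ha : residue 𝒪 a = resK hres x) :
    x - algebraMap 𝒪 R a ∈ maximalIdeal R := by
  rw [← resK_eq_zero_iff hres, map_sub, AlgHom.commutes, ResidueField.algebraMap_eq, ha, sub_self]

/-- Derivations of `R` over `𝒪` into the residue field. -/
noncomputable def derSpace : Submodule (ResidueField 𝒪) (R →ₗ[𝒪] ResidueField 𝒪) where
  carrier := {d | ∀ x y, d (x * y) = resK hres x * d y + resK hres y * d x}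
  add_mem' hd he x y := by
    simp only [LinearMap.add_apply, hd x y, he x y]
    ring
  zero_mem' x y := by simp
  smul_mem' c d hd x y := by
    simp only [LinearMap.smul_apply, hd x y, smul_eq_mul]
    ring

/-- Derivations kill `1`. -/
theorem derSpace_apply_one (d : derSpace hres) : (d : R →ₗ[𝒪] ResidueField 𝒪) 1 = 0 := by
  have h := d.2 1 1
  simpa using h

/-- Derivations kill the constants. -/
theorem derSpace_apply_algebraMap (d : derSpace hres) (a : 𝒪) :
    (d : R →ₗ[𝒪] ResidueField 𝒪) (algebraMap 𝒪 R a) = 0 := by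
  rw [Algebra.algebraMap_eq_smul_one, map_smul, derSpace_apply_one, smul_zero]

/-- A derivation is determined on the maximal ideal. -/
theorem derSpace_ext_maximalIdeal (d : derSpace hres)
    (h : ∀ y ∈ maximalIdeal R, (d : R →ₗ[𝒪] ResidueField 𝒪) y = 0) : d = 0 := by
  refine Subtype.ext (LinearMap.ext fun x => ?_)
  obtain ⟨a, ha⟩ := residue_surjective (resK hres x)
  have := h _ (sub_algebraMap_mem hres ha)
  rwa [map_sub, derSpace_apply_algebraMap, sub_zero] at this

/-- The map `R → k[ε]` attached to a derivation. -/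
noncomputable def dualHom (d : derSpace hres) : R →ₐ[𝒪] DualNumber (ResidueField 𝒪) where
  toFun x := inl (resK hres x) + inr ((d : R →ₗ[𝒪] ResidueField 𝒪) x)
  map_one' := by rw [map_one, derSpace_apply_one, inr_zero, add_zero, inl_one]
  map_zero' := by rw [map_zero, map_zero, inr_zero, inl_zero, add_zero]
  map_add' x y := by
    rw [map_add, map_add, inl_add, inr_add]
    abel
  map_mul' x y := by
    refine TrivSqZeroExt.ext ?_ ?_
    · simp
    · simp [d.2 x y, mul_comm]
  commutes' a := by
    rw [AlgHom.commutes, derSpace_apply_algebraMap, inr_zero, add_zero]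
    rfl

/-- The constant part of the map to dual numbers is the reduction. -/
@[simp] theorem fst_dualHom (d : derSpace hres) (x : R) :
    fst (dualHom hres d x) = resK hres x := by
  simp [dualHom]

@[simp] theorem snd_dualHom (d : derSpace hres) (x : R) :
    snd (dualHom hres d x) = (d : R →ₗ[𝒪] ResidueField 𝒪) x := by
  simp [dualHom]

/-- A derivation is determined by its map to dual numbers. -/
theorem dualHom_injective : Function.Injective (dualHom hres) := fun d e h =>
  Subtype.ext (LinearMap.ext fun x => by rw [← snd_dualHom hres d x, ← snd_dualHom hres e x, h])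

/-- The map to dual numbers is local. -/
instance isLocalHom_dualHom (d : derSpace hres) :
    IsLocalHom (dualHom hres d : R →+* DualNumber (ResidueField 𝒪)) := by
  refine ⟨fun x hx => ?_⟩
  rw [isUnit_iff_isUnit_fst, RingHom.coe_coe, fst_dualHom, isUnit_iff_ne_zero, Ne,
    resK_eq_zero_iff] at hx
  exact notMem_maximalIdeal.1 hx

/-- The map to dual numbers of a nonzero derivation is surjective. -/
theorem dualHom_surjective {d : derSpace hres} (hd : d ≠ 0) :
    Function.Surjective (dualHom hres d) := by
  obtain ⟨y, hy, hy0⟩ : ∃ y ∈ maximalIdeal R, (d : R →ₗ[𝒪] ResidueField 𝒪) y ≠ 0 := by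
    by_contra h
    exact hd (derSpace_ext_maximalIdeal hres d (by simpa using h))
  intro z
  obtain ⟨a, ha⟩ := residue_surjective (fst z)
  obtain ⟨b, hb⟩ := residue_surjective (snd z / (d : R →ₗ[𝒪] ResidueField 𝒪) y)
  refine ⟨algebraMap 𝒪 R a + b • y, TrivSqZeroExt.ext ?_ ?_⟩
  · rw [fst_dualHom, map_add, AlgHom.commutes, map_smul, (resK_eq_zero_iff hres y).2 hy,
      smul_zero, add_zero, ResidueField.algebraMap_eq, ha]
  · rw [snd_dualHom, map_add, derSpace_apply_algebraMap, map_smul, zero_add, Algebra.smul_def,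
      ResidueField.algebraMap_eq, hb, div_mul_cancel₀ _ hy0]

/-- Elements separating the derivations generate the maximal ideal modulo `𝔪² + 𝔪_𝒪 R`. -/
theorem le_span_of_separating {N : ℕ} (x : Fin N → R) (hx : ∀ i, x i ∈ maximalIdeal R)
    (hsep : ∀ d : derSpace hres, (∀ i, (d : R →ₗ[𝒪] ResidueField 𝒪) (x i) = 0) → d = 0) :
    maximalIdeal R ≤ Ideal.span (Set.range x) ⊔
      (maximalIdeal 𝒪).map (algebraMap 𝒪 R) ⊔ maximalIdeal R ^ 2 := by
  classical
  set k := ResidueField 𝒪
  set J : Ideal R := Ideal.span (Set.range x) ⊔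
    (maximalIdeal 𝒪).map (algebraMap 𝒪 R) ⊔ maximalIdeal R ^ 2
  intro y hy
  by_contra hyJ
  have hJm : J ≤ maximalIdeal R := sup_le (sup_le (Ideal.span_le.2 (by
    rintro _ ⟨i, rfl⟩; exact hx i))
    (Ideal.map_le_iff_le_comap.2 fun a ha => Ideal.mem_comap.2 (map_nonunit _ a ha)))
    (Ideal.pow_le_self two_ne_zero)
  have hker : ∀ a ∈ maximalIdeal 𝒪, (Ideal.Quotient.mk J).comp (algebraMap 𝒪 R) a = 0 :=
    fun a ha => Ideal.Quotient.eq_zero_iff_mem.2
      (le_sup_left (b := maximalIdeal R ^ 2) (le_sup_right (a := Ideal.span (Set.range x))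
        (Ideal.mem_map_of_mem _ ha)))
  let _ : Algebra k (R ⧸ J) :=
    (Ideal.Quotient.lift (maximalIdeal 𝒪) ((Ideal.Quotient.mk J).comp (algebraMap 𝒪 R))
      hker).toAlgebra
  have : IsScalarTower 𝒪 k (R ⧸ J) := IsScalarTower.of_algebraMap_eq fun a => rfl
  have hy1 : Ideal.Quotient.mk J y ∉ Submodule.span k {(1 : R ⧸ J)} := by
    rw [Submodule.mem_span_singleton]
    rintro ⟨c, hc⟩
    obtain ⟨a, rfl⟩ := residue_surjective c
    rw [← ResidueField.algebraMap_eq, algebraMap_smul, Algebra.smul_def, mul_one,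
      ← Ideal.Quotient.mk_algebraMap, Ideal.Quotient.mk_eq_mk_iff_sub_mem] at hc
    have : algebraMap 𝒪 R a ∈ maximalIdeal R := by simpa using add_mem (hJm hc) hy
    have ha : a ∈ maximalIdeal 𝒪 := fun hu => this (hu.map (algebraMap 𝒪 R))
    exact hyJ (by simpa using sub_mem (Ideal.Quotient.eq_zero_iff_mem.1 (hker a ha)) hc)
  obtain ⟨φ, hφy, hφ1⟩ := Submodule.exists_dual_map_eq_bot_of_notMem hy1 inferInstance
  have hφ1 : φ 1 = 0 := (Submodule.eq_bot_iff _).1 hφ1 _
    (Submodule.mem_map_of_mem (Submodule.subset_span rfl))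
  let dl : R →ₗ[𝒪] k := (φ.restrictScalars 𝒪).comp (Ideal.Quotient.mkₐ 𝒪 J).toLinearMap
  have hd0 : ∀ a : 𝒪, dl (algebraMap 𝒪 R a) = 0 := fun a => by
    rw [Algebra.algebraMap_eq_smul_one, map_smul]
    simp [dl, hφ1]
  have hdJ : ∀ z ∈ J, dl z = 0 := fun z hz => by
    simp [dl, Ideal.Quotient.eq_zero_iff_mem.2 hz]
  have hd : dl ∈ derSpace hres := by
    intro u v
    obtain ⟨a, ha⟩ := residue_surjective (resK hres u)
    obtain ⟨b, hb⟩ := residue_surjective (resK hres v)
    have hu := sub_algebraMap_mem hres ha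
    have hv := sub_algebraMap_mem hres hb
    have huv : dl ((u - algebraMap 𝒪 R a) * (v - algebraMap 𝒪 R b)) = 0 :=
      hdJ _ (le_sup_right (a := Ideal.span (Set.range x) ⊔
        (maximalIdeal 𝒪).map (algebraMap 𝒪 R)) (sq (maximalIdeal R) ▸ Ideal.mul_mem_mul hu hv))
    rw [sub_mul, mul_sub, mul_sub, ← map_mul, ← Algebra.commutes b u, ← Algebra.smul_def,
      ← Algebra.smul_def, map_sub, map_sub, map_sub, map_smul, map_smul, hd0, sub_zero,
      ← ha, ← hb] at *
    rw [← ResidueField.algebraMap_eq, ← Algebra.smul_def, ← Algebra.smul_def]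
    linear_combination huv
  have h0 : (⟨dl, hd⟩ : derSpace hres) = 0 := hsep _ fun i =>
    hdJ _ (le_sup_left (b := maximalIdeal R ^ 2)
      (le_sup_left (b := (maximalIdeal 𝒪).map (algebraMap 𝒪 R)) (Ideal.subset_span ⟨i, rfl⟩)))
  exact hφy (by simpa [dl] using LinearMap.congr_fun (congrArg Subtype.val h0) y)

/-- If the derivation space has dimension at most `r`, then `R` is a quotient of the power series
ring in `r` variables. -/
theorem exists_surjective_of_finrank_derSpace_le [IsNoetherianRing R]
    [IsAdicComplete (maximalIdeal R) R] [IsAdicComplete (maximalIdeal 𝒪) 𝒪] {r : ℕ}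
    [FiniteDimensional (ResidueField 𝒪) (derSpace hres)]
    (hr : Module.finrank (ResidueField 𝒪) (derSpace hres) ≤ r) :
    ∃ γ : MvPowerSeries (Fin r) 𝒪 →ₐ[𝒪] R, Function.Surjective γ := by
  classical
  set k := ResidueField 𝒪
  let ev : R → Module.Dual k (derSpace hres) := fun y =>
    { toFun := fun d => (d : R →ₗ[𝒪] k) y
      map_add' := fun _ _ => rfl
      map_smul' := fun _ _ => rfl }
  obtain ⟨x, hx, hxsep⟩ := exists_fin_separating (k := ResidueField 𝒪) (D := derSpace hres) hr
    (maximalIdeal R : Set R) ev (zero_mem _)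
  have hsep : ∀ d : derSpace hres, (∀ i, (d : R →ₗ[𝒪] k) (x i) = 0) → d = 0 := fun d hd =>
    derSpace_ext_maximalIdeal hres d (hxsep d hd)
  exact exists_mvPowerSeries_surjective hres x hx (le_span_of_separating hres x hx hsep)

end Fermat.Agent.TangentBound
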